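import Fermat.Agent.Runge.Main
import Mathlib.FieldTheory.KummerPolynomial
import Mathlib.RingTheory.IntegralClosure.IntegrallyClosed
import Mathlib.RingTheory.Polynomial.GaussLemma
import Mathlib.Algebra.GCDMonoid.IntegrallyClosed
import Mathlib.RingTheory.Polynomial.IsIntegral
import Mathlib.RingTheory.Int.Basic
import Mathlib.RingTheory.Polynomial.UniqueFactorization

/-!
# The equation `y ^ p = f (x)`

Runge's theorem with the weight `deg f / p` for `y`: the top part is `T ^ p - 1`.
-/

set_option autoImplicit false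

noncomputable section

open Polynomial Finset

namespace FA.Runge

/-- A monic polynomial of degree divisible by the prime `p`, not a `p`th power, takes a `p`th power
as a value only finitely often. -/
theorem finite_power_values {p : ℕ} (hp : p.Prime) {f : ℤ[X]} (hf : f.Monic)
    (hdvd : p ∣ f.natDegree) (hpow : ∀ g : ℤ[X], g ^ p ≠ f) :
    {v : ℤ × ℤ | v.2 ^ p = f.eval v.1}.Finite := by
  obtain ⟨m, hm⟩ := hdvd
  obtain ⟨fq, hfq⟩ : ∃ fq : ℚ[X], fq = f.map (algebraMap ℤ ℚ) := ⟨_, rfl⟩
  have hfqd : fq.natDegree = p * m := by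
    rw [hfq, hf.natDegree_map, hm]
  have hfqm : fq.Monic := hfq ▸ hf.map _
  have hnot : ∀ g : ℚ[X], g ^ p ≠ fq := by
    intro g hg
    obtain ⟨g', hg'⟩ := IsIntegrallyClosed.eq_map_mul_C_of_dvd ℚ hf
      (g := g) (hfq ▸ hg ▸ dvd_pow_self g hp.ne_zero)
    refine hpow g' (Polynomial.map_injective (algebraMap ℤ ℚ) Int.cast_injective ?_)
    have hc : g.leadingCoeff ^ p = 1 := by rw [← leadingCoeff_pow, hg, hfqm.leadingCoeff]
    rw [Polynomial.map_pow, ← hfq, ← hg]
    conv_rhs => rw [← hg', mul_pow, ← C_pow, hc, C_1, mul_one]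
  have hirr : Irreducible (X ^ p - C fq : ℚ[X][X]) := by
    rw [(monic_X_pow_sub_C fq hp.ne_zero).irreducible_iff_irreducible_map_fraction_map
      (K := FractionRing ℚ[X]), Polynomial.map_sub, Polynomial.map_pow, map_X, map_C]
    refine X_pow_sub_C_irreducible_of_prime hp fun b hb => ?_
    obtain ⟨g, hg⟩ := IsIntegrallyClosed.exists_algebraMap_eq_of_isIntegral_pow (R := ℚ[X])
      hp.pos (hb ▸ isIntegral_algebraMap : IsIntegral ℚ[X] (b ^ p))
    exact hnot g (IsFractionRing.injective ℚ[X] (FractionRing ℚ[X]) (by rw [map_pow, hg, hb]))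
  have hdeg : (X ^ p - C fq : ℚ[X][X]).natDegree = p := natDegree_X_pow_sub_C
  obtain ⟨h, hh⟩ : ∃ h : ℚ[X], h = ∑ i ∈ range p, X ^ i := ⟨_, rfl⟩
  have hhm : h.Monic := hh ▸ monic_geom_sum_X hp.ne_zero
  have hgh : (X - C 1) * h = X ^ p - C 1 := by
    rw [hh, C_1, mul_comm, geom_sum_mul]
  have hghd : ((X - C 1) * h).natDegree = p := by rw [hgh, natDegree_X_pow_sub_C]
  have hhd : 0 < h.natDegree := by
    have := hghd
    rw [(monic_X_sub_C 1).natDegree_mul hhm, natDegree_X_sub_C] at this
    have := hp.two_le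
    omega
  have hcop : IsCoprime (X - C 1) h := by
    refine (irreducible_X_sub_C (1 : ℚ)).coprime_iff_not_dvd.2 fun hd => ?_
    rw [dvd_iff_isRoot, IsRoot, hh, eval_finsetSum] at hd
    simp [hp.ne_zero] at hd
  have key := finite_integer_zeros (F := X ^ p - C fq) (m := m) (c := 1) hirr hdeg
    (fun i => ?_) (by simp [hp.ne_zero, coeff_C]) (monic_X_sub_C 1) hhm
    (by rw [natDegree_X_sub_C]; exact one_pos) hhd hcop
    (fun i hi => ?_) hghd
  · refine ((key.image Prod.swap).subset ?_)
    rintro ⟨x, y⟩ hv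
    refine ⟨(y, x), ?_, rfl⟩
    have hv' : y ^ p = f.eval x := hv
    simp only [Set.mem_ofPred_eq, eval_sub, eval_pow, eval_X, eval_C, hfq]
    rw [← eq_intCast (algebraMap ℤ ℚ) x, eval_map_algebraMap, aeval_algebraMap_apply,
      ← Int.cast_pow, hv']
    simp [coe_aeval_eq_eval]
  · rcases eq_or_ne i p with rfl | hip
    · left; simp [coeff_C, hp.ne_zero]
    rcases eq_or_ne i 0 with rfl | hi0
    · left
      rw [coeff_sub, coeff_X_pow, if_neg hip, coeff_C_zero, zero_sub, natDegree_neg, hfqd]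
      rw [mul_zero, add_zero, mul_comm]
    · right; simp [coeff_C, hip, hi0]
  · rw [one_mul, hgh]
    rcases eq_or_ne i p with rfl | hip
    · simp [coeff_C, coeff_one, hp.ne_zero]
    rcases eq_or_ne i 0 with rfl | hi0
    · simp only [coeff_sub, coeff_X_pow, if_neg hip, coeff_C_zero, zero_sub, Nat.sub_zero,
        coeff_neg]
      rw [mul_comm, ← hfqd, hfqm.coeff_natDegree]
    · simp [coeff_C, coeff_one, hip, hi0]

/-- A monic polynomial of even degree that is not a square takes finitely many square values. -/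
theorem finite_square_values {f : ℤ[X]} (hf : f.Monic) (hdeg : Even f.natDegree)
    (hsq : ¬IsSquare f) : {x : ℤ | IsSquare (f.eval x)}.Finite := by
  refine ((finite_power_values Nat.prime_two hf (even_iff_two_dvd.1 hdeg) fun g hg =>
    hsq ⟨g, by rw [← hg, sq]⟩).image Prod.fst).subset ?_
  rintro x ⟨y, hy⟩
  exact ⟨(x, y), by simp only [Set.mem_ofPred_eq, hy, sq], rfl⟩

end FA.Runge

end
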