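import Fermat.Agent.Runge.Main
import Mathlib.RingTheory.MvPolynomial.Homogeneous
import Mathlib.Algebra.MvPolynomial.Funext
import Mathlib.RingTheory.Polynomial.UniqueFactorization
import Mathlib.Algebra.Field.ZMod

/-!
# Runge's theorem in its classical form

After a shear `y ↦ y + c x` the polynomial has degree equal to its total degree in `x`. The map
`θ : x ↦ t s, y ↦ s` then separates the homogeneous components.
-/

set_option autoImplicit false

noncomputable section

open Polynomial Finset

namespace FA.Runge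

local notation3 "MV" => MvPolynomial (Fin 2) ℚ

/-- The shear `(x, y) ↦ (x, y + c x)`, into polynomials in `x` over `ℚ[y]`. -/
def shear (c : ℚ) : MV →+* ℚ[X][X] :=
  MvPolynomial.eval₂Hom (C.comp C) ![X, C X + C (C c) * X]

/-- The inverse of the shear. -/
def unshear (c : ℚ) : ℚ[X][X] →+* MV :=
  eval₂RingHom (eval₂RingHom MvPolynomial.C
    (MvPolynomial.X 1 - MvPolynomial.C c * MvPolynomial.X 0)) (MvPolynomial.X 0)

theorem unshear_comp (c : ℚ) : (unshear c).comp (shear c) = RingHom.id MV := by
  refine MvPolynomial.ringHom_ext (fun r => ?_) fun i => ?_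
  · simp [shear, unshear]
  · fin_cases i <;> simp [shear, unshear]

theorem shear_comp (c : ℚ) : (shear c).comp (unshear c) = RingHom.id ℚ[X][X] := by
  refine Polynomial.ringHom_ext (fun p => ?_) (by simp [shear, unshear])
  refine RingHom.congr_fun (Polynomial.ringHom_ext (f := ((shear c).comp (unshear c)).comp C)
    (g := C) (fun a => ?_) ?_) p <;> simp [shear, unshear]

/-- The shear as an equivalence. -/
def shearEquiv (c : ℚ) : MV ≃+* ℚ[X][X] :=
  RingEquiv.ofRingHom (shear c) (unshear c) (shear_comp c) (unshear_comp c)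

/-- `x ↦ t s`, `y ↦ s`: the inner variable is now `t`. -/
def spread : ℚ[X][X] →+* ℚ[X][X] :=
  eval₂RingHom (mapRingHom C) (C X * X)

theorem spread_monomial (n j : ℕ) (a : ℚ) :
    spread (monomial n (monomial j a)) = monomial (j + n) (monomial n a) := by
  simp only [spread, coe_eval₂RingHom, eval₂_monomial, coe_mapRingHom, Polynomial.map_monomial]
  rw [← C_mul_X_pow_eq_monomial, ← C_mul_X_pow_eq_monomial, ← C_mul_X_pow_eq_monomial, mul_pow,
    ← C_pow, pow_add, map_mul]
  ring

theorem coeff_spread (P : ℚ[X][X]) (k i : ℕ) :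
    ((spread P).coeff k).coeff i = if i ≤ k then (P.coeff i).coeff (k - i) else 0 := by
  induction P using Polynomial.induction_on' with
  | add p q hp hq =>
    rw [map_add, coeff_add, coeff_add, hp, hq, coeff_add]
    split_ifs <;> simp
  | monomial n a =>
    induction a using Polynomial.induction_on' with
    | add p q hp hq =>
      rw [map_add, map_add, coeff_add, coeff_add, hp, hq, coeff_add]
      split_ifs <;> simp
    | monomial j c =>
      rw [spread_monomial]
      simp only [coeff_monomial, apply_ite (fun p : ℚ[X] => p.coeff i),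
        apply_ite (fun p : ℚ[X] => p.coeff (k - i)), coeff_zero]
      split_ifs <;> first | rfl | omega

theorem spread_injective : Function.Injective spread := by
  intro P Q h
  ext i j
  have := congrArg (fun Z : ℚ[X][X] => (Z.coeff (i + j)).coeff i) h
  simpa [coeff_spread] using this

theorem natDegree_coeff_spread_le (P : ℚ[X][X]) (k : ℕ) : ((spread P).coeff k).natDegree ≤ k :=
  natDegree_le_iff_coeff_eq_zero.2 fun i hi => by rw [coeff_spread, if_neg (by omega)]

/-- Restriction of a binary form to the line `(t, 1 + c t)`. -/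
def dehom (c : ℚ) : MV →ₐ[ℚ] ℚ[X] := MvPolynomial.aeval ![X, 1 + C c * X]

theorem degree_fin_two (s : Fin 2 →₀ ℕ) : s.degree = s 0 + s 1 := by
  rw [Finsupp.degree_eq_sum, Fin.sum_univ_two]

theorem coeff_spread_shear (c : ℚ) (F : MV) (k : ℕ) :
    (spread (shear c F)).coeff k = dehom c (MvPolynomial.homogeneousComponent k F) := by
  induction F using MvPolynomial.induction_on' with
  | add p q hp hq => rw [map_add, map_add, coeff_add, hp, hq, map_add, map_add]
  | monomial s a =>
    have h1 : spread (shear c (MvPolynomial.monomial s a)) =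
        monomial (s 0 + s 1) (C a * (X ^ s 0 * (1 + C c * X) ^ s 1)) := by
      rw [shear, MvPolynomial.eval₂Hom_monomial, Finsupp.prod_fintype _ _ (fun i => pow_zero _),
        Fin.prod_univ_two]
      simp only [Matrix.cons_val_zero, Matrix.cons_val_one, map_mul, map_pow, map_add,
        RingHom.coe_comp, Function.comp_apply]
      have hX : spread (X : ℚ[X][X]) = C X * X := by simp [spread]
      have hY : spread (C (X : ℚ[X])) = X := by simp [spread]
      have hC : ∀ r : ℚ, spread (C (C r)) = C (C r) := fun r => by simp [spread]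
      rw [hX, hY, hC, hC, ← C_mul_X_pow_eq_monomial, map_mul, map_mul, map_pow, map_pow, map_add,
        C_1, map_mul, show (X : ℚ[X][X]) + C (C c) * (C X * X) =
          (1 + C (C c) * C X) * X by ring, mul_pow, mul_pow, pow_add]
      ring
    have h2 : MvPolynomial.homogeneousComponent k (MvPolynomial.monomial s a) =
        if s 0 + s 1 = k then MvPolynomial.monomial s a else 0 := by
      ext t
      rw [MvPolynomial.coeff_homogeneousComponent, apply_ite (MvPolynomial.coeff t),
        MvPolynomial.coeff_zero, MvPolynomial.coeff_monomial, degree_fin_two]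
      by_cases hst : s = t
      · subst hst; simp
      · simp [hst]
    rw [h1, coeff_monomial, h2]
    split_ifs with h
    · rw [dehom, MvPolynomial.aeval_monomial, Finsupp.prod_fintype _ _ (fun i => pow_zero _),
        Fin.prod_univ_two]
      simp
    · rw [map_zero]

theorem coeff_dehom_top (c : ℚ) {T : MV} {D : ℕ} (hT : T.IsHomogeneous D) :
    (dehom c T).coeff D = MvPolynomial.eval ![1, c] T := by
  rw [T.as_sum, map_sum, map_sum, finsetSum_coeff]
  refine sum_congr rfl fun s hs => ?_
  have hsD : s 0 + s 1 = D := by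
    by_contra h
    exact MvPolynomial.mem_support_iff.1 hs (hT.coeff_eq_zero (by rwa [degree_fin_two]))
  rw [dehom, MvPolynomial.aeval_monomial, MvPolynomial.eval_monomial,
    Finsupp.prod_fintype _ _ (fun i => pow_zero _), Finsupp.prod_fintype _ _ (fun i => pow_zero _),
    Fin.prod_univ_two, Fin.prod_univ_two]
  simp only [Matrix.cons_val_zero, Matrix.cons_val_one, one_pow, one_mul,
    ← Polynomial.C_eq_algebraMap, coeff_C_mul]
  rw [← hsD, coeff_mul_add_eq_of_natDegree_le (natDegree_X_pow_le _)
    (natDegree_pow_le_of_le (s 1) (show (1 + C c * X : ℚ[X]).natDegree ≤ 1 by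
      compute_degree) |>.trans_eq (mul_one _))]
  rw [coeff_X_pow, if_pos rfl, one_mul]
  congr 1
  have := coeff_pow_of_natDegree_le (p := (1 + C c * X : ℚ[X])) (m := s 1) (n := 1)
    (by compute_degree)
  rw [mul_one] at this
  rw [this]
  simp [coeff_one]

/-- A nonzero binary form is nonzero at some `(1, c)` with `c` an integer. -/
theorem exists_eval_ne_zero {T : MV} {D : ℕ} (hT : T.IsHomogeneous D) (h0 : T ≠ 0) :
    ∃ c : ℤ, MvPolynomial.eval ![1, (c : ℚ)] T ≠ 0 := by
  by_contra! h
  have hq : MvPolynomial.aeval ![(1 : ℚ[X]), X] T = 0 := by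
    refine eq_zero_of_infinite_isRoot _ (Set.infinite_of_injective_forall_mem
      Int.cast_injective fun c => ?_)
    rw [Set.mem_ofPred_eq, IsRoot, ← coe_evalRingHom, MvPolynomial.map_aeval]
    refine Eq.trans ?_ (h c)
    refine congrArg (fun φ : MV →+* ℚ => φ T) (MvPolynomial.ringHom_ext (fun r => ?_) fun i => ?_)
    · simp
    · fin_cases i <;> simp
  refine h0 ((mul_eq_zero.1 (MvPolynomial.funext (p := T * MvPolynomial.X 0) (q := 0)
    fun v => ?_)).resolve_right (MvPolynomial.X_ne_zero _))
  rw [map_mul, MvPolynomial.eval_X, map_zero]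
  rcases eq_or_ne (v 0) 0 with hv | hv
  · rw [hv, mul_zero]
  have h1 : MvPolynomial.eval ![1, v 1 / v 0] T = 0 := by
    have := congrArg (eval (v 1 / v 0)) hq
    rw [eval_zero, ← coe_evalRingHom, MvPolynomial.map_aeval] at this
    refine Eq.trans ?_ this
    refine congrArg (fun φ : MV →+* ℚ => φ T) (MvPolynomial.ringHom_ext (fun r => ?_) fun i => ?_)
    · simp
    · fin_cases i <;> simp
  have h2 : MvPolynomial.eval v T = v 0 ^ D * MvPolynomial.eval ![1, v 1 / v 0] T := by
    rw [MvPolynomial.eval_eq', MvPolynomial.eval_eq', mul_sum]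
    refine sum_congr rfl fun s hs => ?_
    have hsD : s 0 + s 1 = D := by
      by_contra h
      exact MvPolynomial.mem_support_iff.1 hs (hT.coeff_eq_zero (by rwa [degree_fin_two]))
    rw [Fin.prod_univ_two, Fin.prod_univ_two, ← hsD]
    simp only [Matrix.cons_val_zero, Matrix.cons_val_one, one_pow, one_mul, div_pow, pow_add]
    field_simp
  rw [h2, h1, mul_zero, zero_mul]

/-- The homogenisation of an irreducible polynomial is irreducible. -/
theorem irreducible_of_spread_eq {q : ℚ[X]} (hq : Irreducible q) {H : ℚ[X][X]}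
    (h : spread H = C q * X ^ q.natDegree) : Irreducible H := by
  have hr : 0 < q.natDegree := hq.natDegree_pos
  have hne : spread H ≠ 0 := h ▸ mul_ne_zero (C_ne_zero.2 hq.ne_zero) (pow_ne_zero _ X_ne_zero)
  have hdeg : (spread H).natDegree = q.natDegree := by
    rw [h, natDegree_C_mul_X_pow _ _ hq.ne_zero]
  refine ⟨fun hu => ?_, fun A B hAB => ?_⟩
  · have := natDegree_eq_zero_of_isUnit (hu.map spread)
    omega
  have hAB' : spread A * spread B = spread H := by rw [hAB, map_mul]
  have hA : spread A ≠ 0 := left_ne_zero_of_mul (hAB' ▸ hne)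
  have hB : spread B ≠ 0 := right_ne_zero_of_mul (hAB' ▸ hne)
  have hd : (spread A).natDegree + (spread B).natDegree = q.natDegree := by
    rw [← natDegree_mul hA hB, hAB', hdeg]
  have hl : (spread A).leadingCoeff * (spread B).leadingCoeff = q := by
    rw [← leadingCoeff_mul, hAB', h, leadingCoeff_C_mul_X_pow]
  have key : ∀ U V : ℚ[X][X], spread U ≠ 0 → spread V ≠ 0 →
      (spread U).natDegree + (spread V).natDegree = q.natDegree →
      (spread U).leadingCoeff * (spread V).leadingCoeff = q →
      IsUnit (spread U).leadingCoeff → IsUnit U := by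
    intro U V hU hV hd hl hu
    have h1 : (spread V).leadingCoeff.natDegree ≤ (spread V).natDegree :=
      natDegree_coeff_spread_le V _
    have h2 : q.natDegree = (spread V).leadingCoeff.natDegree := by
      rw [← hl, natDegree_mul hu.ne_zero (leadingCoeff_ne_zero.2 hV),
        natDegree_eq_zero_of_isUnit hu, zero_add]
    have h3 : (spread U).natDegree = 0 := by omega
    obtain ⟨u, hu0, hu'⟩ := Polynomial.isUnit_iff.1 hu
    have hU' : spread U = C (C u) := by
      rw [hu', leadingCoeff, h3]
      exact eq_C_of_natDegree_eq_zero h3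
    have : U = C (C u) := spread_injective (by rw [hU']; simp [spread])
    rw [this]
    exact (hu0.map C).map C
  rcases hq.isUnit_or_isUnit hl.symm with hu | hu
  · exact Or.inl (key A B hA hB hd hl hu)
  · exact Or.inr (key B A hB hA (by omega) (by rw [mul_comm, hl]) hu)

theorem eval_shear (c : ℚ) (F : MV) (x y : ℚ) :
    ((shear c F).eval (C x)).eval y = MvPolynomial.eval ![x, y + c * x] F := by
  have : ((evalRingHom y).comp (evalRingHom (C x))).comp (shear c) =
      MvPolynomial.eval ![x, y + c * x] := by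
    refine MvPolynomial.ringHom_ext (fun r => ?_) fun i => ?_
    · simp [shear]
    · fin_cases i <;> simp [shear]
  simpa using RingHom.congr_fun this F

/-- **Runge's theorem.** -/
theorem finite_zeros {F : MV} (hirr : Irreducible F)
    (htop : ∀ (a : ℚ) (P : MV) (k : ℕ), Irreducible P →
      MvPolynomial.homogeneousComponent F.totalDegree F ≠ MvPolynomial.C a * P ^ k) :
    {v : ℤ × ℤ | MvPolynomial.eval ![(v.1 : ℚ), (v.2 : ℚ)] F = 0}.Finite := by
  classical
  obtain ⟨D, hD⟩ : ∃ D, D = F.totalDegree := ⟨_, rfl⟩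
  rw [← hD] at htop
  obtain ⟨T, hT⟩ : ∃ T, T = MvPolynomial.homogeneousComponent D F := ⟨_, rfl⟩
  rw [← hT] at htop
  have hTh : T.IsHomogeneous D := hT ▸ MvPolynomial.homogeneousComponent_isHomogeneous D F
  have hT0 : T ≠ 0 := by
    obtain ⟨s, hs, hsmax⟩ := Finset.exists_mem_eq_sup F.support
      (MvPolynomial.support_nonempty.2 hirr.ne_zero) (fun s => s.sum fun _ e => e)
    intro h
    have h1 := congrArg (MvPolynomial.coeff s) (hT ▸ h)
    rw [MvPolynomial.coeff_homogeneousComponent, if_pos (by
      rw [hD, MvPolynomial.totalDegree, hsmax]; rfl), MvPolynomial.coeff_zero] at h1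
    exact MvPolynomial.mem_support_iff.1 hs h1
  obtain ⟨c, hc⟩ := exists_eval_ne_zero hTh hT0
  obtain ⟨e, he⟩ : ∃ e, e = MvPolynomial.eval ![1, (c : ℚ)] T := ⟨_, rfl⟩
  rw [← he] at hc
  obtain ⟨G, hG⟩ : ∃ G, G = shear c F := ⟨_, rfl⟩
  obtain ⟨f, hf⟩ : ∃ f, f = dehom c T := ⟨_, rfl⟩
  have hGk : (spread G).coeff D = f := by rw [hG, hf, hT, coeff_spread_shear]
  have hG0 : ∀ i j, D < i + j → (G.coeff i).coeff j = 0 := by
    intro i j hij
    have h1 := congrArg (fun p : ℚ[X] => p.coeff i) (coeff_spread_shear (c : ℚ) F (i + j))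
    rw [MvPolynomial.homogeneousComponent_eq_zero (i + j) F (hD ▸ hij), map_zero, ← hG] at h1
    simpa [coeff_spread] using h1
  have hfi : ∀ i, i ≤ D → f.coeff i = (G.coeff i).coeff (D - i) := fun i hi => by
    rw [← hGk, coeff_spread, if_pos hi]
  have hfD : f.coeff D = e := by rw [hf, he, coeff_dehom_top _ hTh]
  have hfdeg : f.natDegree = D :=
    natDegree_eq_of_le_of_coeff_ne_zero (hGk ▸ natDegree_coeff_spread_le G D) (hfD ▸ hc)
  have hGD : G.coeff D = C e := by
    ext j
    rcases j with - | j
    · rw [coeff_C_zero, ← hfD, hfi D le_rfl, Nat.sub_self]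
    · rw [coeff_C_succ, hG0 D (j + 1) (by omega)]
  have hGdeg : G.natDegree = D := natDegree_eq_of_le_of_coeff_ne_zero
    (natDegree_le_iff_coeff_eq_zero.2 fun i hi => by ext j; rw [hG0 i j (by omega), coeff_zero])
    (hGD ▸ C_ne_zero.2 hc)
  -- the top form is not a power of an irreducible
  obtain ⟨f₀, hf₀⟩ : ∃ f₀, f₀ = C e⁻¹ * f := ⟨_, rfl⟩
  have hff₀ : f = C e * f₀ := by
    rw [hf₀, ← mul_assoc, ← C_mul, mul_inv_cancel₀ hc, C_1, one_mul]
  have hf₀m : f₀.Monic := by
    rw [hf₀]
    exact monic_C_mul_of_mul_leadingCoeff_eq_one (by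
      rw [leadingCoeff, hfdeg, hfD, inv_mul_cancel₀ hc])
  have hf₀d : f₀.natDegree = D := by
    rw [hf₀, natDegree_C_mul (inv_ne_zero hc), hfdeg]
  have hD0 : D ≠ 0 := by
    intro h0
    refine htop e (MvPolynomial.X 0) 0 ((MulEquiv.irreducible_iff (shearEquiv (c : ℚ))).1 ?_) ?_
    · rw [show shearEquiv (c : ℚ) (MvPolynomial.X 0) = (X : ℚ[X][X]) by simp [shearEquiv, shear]]
      exact Polynomial.irreducible_X
    · rw [pow_zero, mul_one, he]
      subst h0
      rw [MvPolynomial.totalDegree_eq_zero_iff_eq_C.1 (hTh.totalDegree hT0),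
        MvPolynomial.eval_C]
  obtain ⟨q₀, hq₀, hq₀d⟩ := WfDvdMonoid.exists_irreducible_factor
    (not_isUnit_of_natDegree_pos f₀ (by omega)) hf₀m.ne_zero
  obtain ⟨q, hq⟩ : ∃ q, q = q₀ * C q₀.leadingCoeff⁻¹ := ⟨_, rfl⟩
  have hqm : q.Monic := hq ▸ monic_mul_leadingCoeff_inv hq₀.ne_zero
  have hqi : Irreducible q := hq ▸ irreducible_mul_leadingCoeff_inv.2 hq₀
  obtain ⟨n, r, hqr, hnr⟩ := WfDvdMonoid.max_power_factor hf₀m.ne_zero hqi
  have hrm : r.Monic := (hqm.pow n).of_mul_monic_left (hnr ▸ hf₀m)
  have hn0 : n ≠ 0 := by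
    rintro rfl
    rw [pow_zero, one_mul] at hnr
    refine hqr (hnr ▸ ?_)
    rwa [hq, mul_comm, C_mul_dvd (inv_ne_zero (leadingCoeff_ne_zero.2 hq₀.ne_zero))]
  have hrd : 0 < r.natDegree := by
    rw [Nat.pos_iff_ne_zero]
    intro h0
    rw [(Polynomial.Monic.natDegree_eq_zero hrm).1 h0, mul_one] at hnr
    obtain ⟨H, hH⟩ : ∃ H : ℚ[X][X],
        H = ∑ i ∈ range (q.natDegree + 1), monomial i (monomial (q.natDegree - i) (q.coeff i)) :=
      ⟨_, rfl⟩
    have hHs : spread H = C q * X ^ q.natDegree := by
      rw [hH, map_sum]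
      simp only [spread_monomial]
      conv_rhs => arg 1; rw [q.as_sum_range]
      rw [map_sum, sum_mul]
      refine sum_congr rfl fun i hi => ?_
      rw [C_mul_X_pow_eq_monomial, Nat.sub_add_cancel (Nat.lt_succ_iff.1 (Finset.mem_range.1 hi))]
    have hTs : spread (shear c T) = C f * X ^ D := by
      refine Polynomial.ext fun k => ?_
      rw [coeff_spread_shear, MvPolynomial.homogeneousComponent_of_mem hTh, coeff_C_mul_X_pow]
      split_ifs with h1
      · rw [hf]
      · rw [map_zero]
    refine htop e ((shearEquiv c).symm H) n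
      ((MulEquiv.irreducible_iff (shearEquiv (c : ℚ)).symm).2 (irreducible_of_spread_eq hqi hHs)) ?_
    refine (shearEquiv (c : ℚ)).injective ?_
    rw [map_mul, map_pow, RingEquiv.apply_symm_apply]
    refine spread_injective ?_
    have hCe : spread (shearEquiv (c : ℚ) (MvPolynomial.C e)) = C (C e) := by
      simp [shearEquiv, shear, spread]
    rw [map_mul, map_pow, hHs, hCe, mul_pow, ← C_pow, ← pow_mul, ← mul_assoc, ← C_mul,
      show spread (shearEquiv (c : ℚ) T) = C f * X ^ D from hTs, hff₀, ← hnr,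
      show D = q.natDegree * n by rw [← hf₀d, hnr, natDegree_pow, mul_comm]]
  have hcop : IsCoprime (q ^ n) r := (hqi.coprime_iff_not_dvd.2 hqr).pow_left
  have key := finite_integer_zeros (F := G) (m := 1) (c := e) (g := q ^ n) (h := r)
    (hG ▸ (MulEquiv.irreducible_iff (shearEquiv (c : ℚ))).2 hirr) hGdeg (fun i => ?_) hGD
    (hqm.pow n) hrm
    (by rw [natDegree_pow]; exact Nat.mul_pos (Nat.pos_of_ne_zero hn0) hqi.natDegree_pos) hrd hcop
    (fun i hi => by rw [one_mul, ← hnr, ← coeff_C_mul, ← hff₀, hfi i hi])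
    (by rw [← hnr, hf₀d])
  · refine (key.image fun w => (w.1, w.2 + c * w.1)).subset ?_
    rintro ⟨x, y⟩ hv
    refine ⟨(x, y - c * x), ?_, by simp⟩
    simp only [Set.mem_ofPred_eq, hG]
    rw [eval_shear]
    push_cast
    rw [sub_add_cancel]
    exact hv
  · rcases le_or_gt i D with hi | hi
    · left
      have : (G.coeff i).natDegree ≤ D - i :=
        natDegree_le_iff_coeff_eq_zero.2 fun j hj => hG0 i j (by omega)
      omega
    · right
      ext j
      rw [hG0 i j (by omega), coeff_zero]

end FA.Runge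

end
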