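import Mathlib.RingTheory.Polynomial.Basic
import Mathlib.Algebra.Polynomial.RingDivision
import Mathlib.Algebra.Polynomial.FieldDivision
import Mathlib.Tactic.LinearCombination

/-!
# Lifting a coprime factorisation to a polynomial over `k[s]`

A monic polynomial over `k[s]` whose reduction at `s = 0` is a product of coprime monic
factors is congruent, modulo any power of `s`, to a product of monic polynomials.
-/

set_option autoImplicit false

noncomputable section

open Polynomial

namespace FA.Runge

variable {k : Type*} [Field k]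

/-- Reduction at `s = 0`. -/
def red : k[X][X] →+* k[X] := Polynomial.mapRingHom (evalRingHom 0)

/-- The constant section. -/
def cst : k[X] →+* k[X][X] := Polynomial.mapRingHom C

@[simp] theorem red_cst (p : k[X]) : red (cst p) = p := by
  ext n
  simp [red, cst]

@[simp] theorem red_C (c : k[X]) : red (C c : k[X][X]) = C (c.coeff 0) := by
  simp [red, coeff_zero_eq_eval_zero]

theorem C_X_dvd_of_red_eq_zero {Z : k[X][X]} (h : red Z = 0) : C (X : k[X]) ∣ Z := by
  rw [C_dvd_iff_dvd_coeff]
  intro i
  rw [X_dvd_iff, coeff_zero_eq_eval_zero]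
  have := congrArg (fun q : k[X] => q.coeff i) h
  simpa [red] using this

theorem degree_red_le (Z : k[X][X]) : (red Z).degree ≤ Z.degree := degree_map_le

/-- One step of the lifting. -/
theorem exists_correction {g h e : k[X]} (hg : g.Monic) (hcop : IsCoprime g h)
    (he : e.degree < (g * h).degree) (hh : h.Monic) :
    ∃ u v : k[X], u * h + g * v = e ∧ u.degree < g.degree ∧ v.degree < h.degree := by
  obtain ⟨α, β, hαβ⟩ := hcop
  obtain ⟨u, hu⟩ : ∃ u, u = (e * β) %ₘ g := ⟨_, rfl⟩
  have hdiv := modByMonic_add_div (e * β) g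
  have key : u * h + g * (e * α + h * ((e * β) /ₘ g)) = e := by
    rw [hu]
    linear_combination h * hdiv + e * hαβ
  have hu' : u.degree < g.degree := hu ▸ degree_modByMonic_lt _ hg
  refine ⟨u, _, key, hu', ?_⟩
  by_contra hv
  rw [not_lt] at hv
  have h1 : (g * h).degree ≤ (g * (e * α + h * ((e * β) /ₘ g))).degree := by
    rw [degree_mul, degree_mul]
    exact add_le_add le_rfl hv
  have h2 : (g * (e * α + h * ((e * β) /ₘ g))).degree < (g * h).degree := by
    rw [show g * (e * α + h * ((e * β) /ₘ g)) = e - u * h by linear_combination key]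
    refine (degree_sub_le _ _).trans_lt (max_lt he ?_)
    rw [degree_mul, degree_mul]
    exact WithBot.add_lt_add_right (degree_ne_bot.2 hh.ne_zero) hu'
  exact absurd h1 (not_le.2 h2)

/-- **Truncated Hensel lifting.** -/
theorem exists_lift {G : k[X][X]} {g h : k[X]} (hG : G.Monic) (hg : g.Monic) (hh : h.Monic)
    (hcop : IsCoprime g h) (hred : red G = g * h) :
    ∀ K : ℕ, 1 ≤ K → ∃ A B : k[X][X], A.Monic ∧ B.Monic ∧ red A = g ∧ red B = h ∧
      A.natDegree = g.natDegree ∧ B.natDegree = h.natDegree ∧
      C ((X : k[X]) ^ K) ∣ G - A * B := by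
  intro K hK
  induction K, hK using Nat.le_induction with
  | base =>
    refine ⟨cst g, cst h, hg.map _, hh.map _, red_cst g, red_cst h, hg.natDegree_map _,
      hh.natDegree_map _, ?_⟩
    rw [pow_one]
    exact C_X_dvd_of_red_eq_zero (by rw [map_sub, map_mul, red_cst, red_cst, hred, sub_self])
  | succ K hK ih =>
    obtain ⟨A, B, hA, hB, hAg, hBh, hdA, hdB, E, hE⟩ := ih
    have hdeg : (A * B).degree = (g * h).degree := by
      rw [degree_mul, degree_mul, degree_eq_natDegree hA.ne_zero, degree_eq_natDegree hB.ne_zero,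
        degree_eq_natDegree hg.ne_zero, degree_eq_natDegree hh.ne_zero, hdA, hdB]
    have hGdeg : G.degree = (A * B).degree := by
      rw [hdeg, ← hred, degree_eq_natDegree hG.ne_zero, degree_eq_natDegree
        (show red G ≠ 0 from (hG.map _).ne_zero)]
      exact congrArg _ (hG.natDegree_map _).symm
    have hE' : E.degree < (g * h).degree := by
      have h1 : (G - A * B).degree < G.degree :=
        degree_sub_lt_left hGdeg hG.ne_zero (by rw [hG.leadingCoeff, (hA.mul hB).leadingCoeff])
      rw [hE, degree_mul, degree_C (pow_ne_zero _ X_ne_zero), zero_add, hGdeg, hdeg] at h1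
      exact h1
    obtain ⟨u, v, huv, hu, hv⟩ :=
      exists_correction hg hcop ((degree_red_le E).trans_lt hE') hh
    have hsmall : ∀ (w : k[X]) (T : k[X][X]) (q : k[X]), T.Monic → T.natDegree = q.natDegree →
        q.Monic → w.degree < q.degree → (C ((X : k[X]) ^ K) * cst w).degree < T.degree := by
      intro w T q hT hTq hq hw
      rw [degree_mul, degree_C (pow_ne_zero _ X_ne_zero), zero_add,
        degree_eq_natDegree hT.ne_zero, hTq, ← degree_eq_natDegree hq.ne_zero]
      exact degree_map_le.trans_lt hw
    have hA' := hsmall u A g hA hdA hg hu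
    have hB' := hsmall v B h hB hdB hh hv
    refine ⟨A + C (X ^ K) * cst u, B + C (X ^ K) * cst v, hA.add_of_left hA', hB.add_of_left hB',
      ?_, ?_, ?_, ?_, ?_⟩
    · simp [hAg, show K ≠ 0 by omega]
    · simp [hBh, show K ≠ 0 by omega]
    · rw [natDegree_add_eq_left_of_degree_lt hA', hdA]
    · rw [natDegree_add_eq_left_of_degree_lt hB', hdB]
    · obtain ⟨W, hW⟩ := C_X_dvd_of_red_eq_zero (Z := E - cst u * B - A * cst v -
        C (X ^ K) * cst u * cst v) (by
          simp only [map_sub, map_mul, red_cst, red_C, hAg, hBh, coeff_X_pow,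
            if_neg (show (0 : ℕ) ≠ K by omega), map_zero, zero_mul, sub_zero]
          linear_combination -huv)
      refine ⟨W, ?_⟩
      rw [pow_succ, C_mul]
      linear_combination hE + C ((X : k[X]) ^ K) * hW

end FA.Runge

end
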