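import Fermat.Agent.Runge.Lift
import Mathlib.RingTheory.Polynomial.GaussLemma
import Mathlib.RingTheory.Localization.Integral
import Mathlib.RingTheory.Localization.FractionRing
import Mathlib.LinearAlgebra.FiniteDimensional.Lemmas
import Mathlib.LinearAlgebra.Dimension.Constructions
import Mathlib.Algebra.Polynomial.Reverse
import Mathlib.Algebra.Order.Ring.Abs
import Mathlib.Data.Real.Basic
import Mathlib.Analysis.Normed.Ring.Basic
import Mathlib.Data.Int.Interval

/-!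
# Runge's theorem

Let `F (x, y)` be irreducible, of degree `d` in `x`, of weighted degree `m * d` when `x` has weight
`m`, and suppose that the weighted top part factors into coprime factors. At infinity `F` is then
congruent to a product `A * B` to any order. An auxiliary polynomial, of degree less than `d` in
`x`, that is small on the branches of `A` takes integral values less than one there, so vanishes;
the same for `B`; and it has only finitely many common zeros with `F`.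
-/

set_option autoImplicit false

noncomputable section

open Polynomial Finset

namespace FA.Runge

/-- Evaluation at `(t, s)`: the outer variable is `t`. -/
def ev (t s : ℝ) : ℚ[X][X] →+* ℝ :=
  eval₂RingHom (eval₂RingHom (Rat.castHom ℝ) s) t

theorem ev_C (t s : ℝ) (a : ℚ[X]) : ev t s (C a) = a.eval₂ (Rat.castHom ℝ) s := by
  simp [ev]

theorem ev_cast (x y : ℚ) (Z : ℚ[X][X]) :
    ev x y Z = (((Z.eval (C x)).eval y : ℚ) : ℝ) := by
  induction Z using Polynomial.induction_on' with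
  | add p q hp hq => simp [hp, hq]
  | monomial n a =>
    have h : a.eval₂ (Rat.castHom ℝ) (y : ℝ) = ((a.eval y : ℚ) : ℝ) :=
      eval₂_at_apply (Rat.castHom ℝ) y
    simp [ev, h]

theorem exists_bound (T : ℝ) (Z : ℚ[X][X]) :
    ∃ M : ℝ, ∀ t s : ℝ, |t| ≤ T → |s| ≤ 1 → |ev t s Z| ≤ M := by
  induction Z using Polynomial.induction_on' with
  | add p q hp hq =>
    obtain ⟨M, hM⟩ := hp
    obtain ⟨M', hM'⟩ := hq
    exact ⟨M + M', fun t s ht hs => by
      rw [map_add]; exact (abs_add_le _ _).trans (add_le_add (hM t s ht hs) (hM' t s ht hs))⟩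
  | monomial n a =>
    induction a using Polynomial.induction_on' with
    | add p q hp hq =>
      obtain ⟨M, hM⟩ := hp
      obtain ⟨M', hM'⟩ := hq
      exact ⟨M + M', fun t s ht hs => by
        rw [map_add, map_add]
        exact (abs_add_le _ _).trans (add_le_add (hM t s ht hs) (hM' t s ht hs))⟩
    | monomial j c =>
      refine ⟨|(c : ℝ)| * T ^ n, fun t s ht hs => ?_⟩
      have h : ev t s (monomial n (monomial j c)) = (c : ℝ) * s ^ j * t ^ n := by simp [ev]
      rw [h, abs_mul, abs_mul, abs_pow, abs_pow]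
      exact mul_le_mul (mul_le_of_le_one_right (abs_nonneg _) (pow_le_one₀ (abs_nonneg _) hs))
        (pow_le_pow_left₀ (abs_nonneg _) ht n) (by positivity) (abs_nonneg _)

/-- A monic equation has bounded roots. -/
theorem exists_root_bound {G : ℚ[X][X]} (hG : G.Monic) :
    ∃ T : ℝ, ∀ t s : ℝ, |s| ≤ 1 → ev t s G = 0 → |t| ≤ T := by
  obtain ⟨T, hT⟩ : ∃ T : ℕ → ℝ, ∀ i (t s : ℝ), |t| ≤ 0 → |s| ≤ 1 →
      |ev t s (C (G.coeff i))| ≤ T i := by
    choose M hM using fun i => exists_bound 0 (C (G.coeff i))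
    exact ⟨M, fun i => hM i⟩
  refine ⟨max 1 (∑ i ∈ range G.natDegree, T i), fun t s hs h => ?_⟩
  rcases le_or_gt |t| 1 with ht | ht
  · exact ht.trans (le_max_left _ _)
  refine le_max_of_le_right ?_
  obtain ⟨d, hd⟩ : ∃ d, d = G.natDegree := ⟨_, rfl⟩
  rw [← hd]
  have hsum : t ^ d = -∑ i ∈ range d, (G.coeff i).eval₂ (Rat.castHom ℝ) s * t ^ i := by
    have e := eval₂_eq_sum_range (eval₂RingHom (Rat.castHom ℝ) s) t (p := G)
    rw [← hd, sum_range_succ, hd, hG.coeff_natDegree, map_one, one_mul, ← hd] at e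
    rw [ev, coe_eval₂RingHom, e] at h
    simp only [coe_eval₂RingHom] at h
    linarith
  have hle : |t| ^ d ≤ (∑ i ∈ range d, T i) * |t| ^ (d - 1) := by
    rw [← abs_pow, hsum, abs_neg, sum_mul]
    refine (abs_sum_le_sum_abs _ _).trans (sum_le_sum fun i hi => ?_)
    rw [abs_mul, abs_pow]
    have hb := hT i 0 s (by rw [abs_zero]) hs
    rw [ev_C] at hb
    exact mul_le_mul hb (pow_le_pow_right₀ ht.le (by have := Finset.mem_range.1 hi; omega))
      (by positivity) ((abs_nonneg _).trans hb)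
  rcases d with - | e
  · simp only [range_zero, sum_empty, pow_zero, zero_mul] at hle
    exact absurd hle (by norm_num)
  · rw [pow_succ', Nat.add_sub_cancel] at hle
    exact le_of_mul_le_mul_right hle (by positivity)

theorem exists_near_zero {G A B E α β W : ℚ[X][X]} {K : ℕ} (hG : G.Monic)
    (hE : G - A * B = C ((X : ℚ[X]) ^ K) * E) (hW : α * A + β * B = 1 + C (X : ℚ[X]) * W) :
    ∃ δ T M : ℝ, 0 < δ ∧ δ ≤ 1 ∧ ∀ t s : ℝ, |s| ≤ δ → ev t s G = 0 →
      |t| ≤ T ∧ (|ev t s A| ≤ M * |s| ^ K ∨ |ev t s B| ≤ M * |s| ^ K) := by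
  obtain ⟨T, hT⟩ := exists_root_bound hG
  obtain ⟨Me, hMe⟩ := exists_bound T E
  obtain ⟨Ma, hMa⟩ := exists_bound T α
  obtain ⟨Mb, hMb⟩ := exists_bound T β
  obtain ⟨Mw, hMw⟩ := exists_bound T W
  obtain ⟨L, hL⟩ : ∃ L, L = |Ma| + |Mb| + |Mw| + 1 := ⟨_, rfl⟩
  have hL1 : 1 ≤ L := by linarith [abs_nonneg Ma, abs_nonneg Mb, abs_nonneg Mw]
  refine ⟨1 / (2 * L), T, |Me| * (4 * L), by positivity, ?_, fun t s hs h0 => ?_⟩
  · rw [div_le_one (by positivity)]; linarith
  have hs1 : |s| ≤ 1 := hs.trans (by rw [div_le_one (by positivity)]; linarith)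
  have ht := hT t s hs1 h0
  refine ⟨ht, ?_⟩
  have hAB : |ev t s A| * |ev t s B| ≤ |Me| * |s| ^ K := by
    have e := congrArg (ev t s) hE
    simp only [map_sub, map_mul, h0, ev_C, eval₂_X_pow, zero_sub] at e
    rw [← abs_mul, ← abs_neg, e, abs_mul, abs_pow, mul_comm]
    exact mul_le_mul_of_nonneg_right ((hMe t s ht hs1).trans (le_abs_self _)) (by positivity)
  have hbig : 1 / (4 * L) ≤ |ev t s A| ∨ 1 / (4 * L) ≤ |ev t s B| := by
    by_contra! hn
    have e := congrArg (ev t s) hW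
    simp only [map_add, map_mul, map_one, ev_C, eval₂_X] at e
    have h1 : |ev t s α * ev t s A + ev t s β * ev t s B| <
        L * (1 / (4 * L)) + L * (1 / (4 * L)) := by
      refine (abs_add_le _ _).trans_lt (add_lt_add ?_ ?_) <;> rw [abs_mul]
      · exact mul_lt_mul' (((hMa t s ht hs1).trans (le_abs_self _)).trans
          (by linarith [abs_nonneg Mb, abs_nonneg Mw])) hn.1 (abs_nonneg _) (by linarith)
      · exact mul_lt_mul' (((hMb t s ht hs1).trans (le_abs_self _)).trans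
          (by linarith [abs_nonneg Ma, abs_nonneg Mw])) hn.2 (abs_nonneg _) (by linarith)
    have h2 : |s * ev t s W| ≤ 1 / (2 * L) * L := by
      rw [abs_mul]
      exact mul_le_mul hs (((hMw t s ht hs1).trans (le_abs_self _)).trans
        (by linarith [abs_nonneg Ma, abs_nonneg Mb])) (abs_nonneg _) (by positivity)
    rw [show L * (1 / (4 * L)) + L * (1 / (4 * L)) = 1 / 2 by field_simp; ring, e] at h1
    rw [show 1 / (2 * L) * L = 1 / 2 by field_simp] at h2
    linarith [(abs_lt.1 h1).2, (abs_le.1 h2).1]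
  rcases hbig with hA | hB
  · right
    have := (mul_le_mul_of_nonneg_right hA (abs_nonneg (ev t s B))).trans hAB
    rw [one_div, inv_mul_le_iff₀ (by positivity)] at this
    linarith
  · left
    have := (mul_le_mul_of_nonneg_left hB (abs_nonneg (ev t s A))).trans hAB
    rw [one_div, ← div_eq_mul_inv, div_le_iff₀ (by positivity)] at this
    linarith

/-- An auxiliary polynomial `P`, of degree less than `d` in `x`, with a weighted reversal `Q`
that is divisible by `s ^ K` modulo `A`. -/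
theorem exists_aux (m d : ℕ) {A : ℚ[X][X]} (hA : A.Monic) (had : A.natDegree < d) :
    ∃ (D : ℕ) (P U V : ℚ[X][X]), P ≠ 0 ∧ P.natDegree < d ∧
      (∀ t s : ℝ, s ≠ 0 →
        ev (t / s ^ m) s⁻¹ P * s ^ D =
          ev t s A * ev t s U + s ^ (D + 1) * ev t s V) ∧
      D ≤ m * (d - 1) + A.natDegree * m * d := by
  classical
  obtain ⟨a, ha⟩ : ∃ a, a = A.natDegree := ⟨_, rfl⟩
  obtain ⟨N, hN⟩ : ∃ N, N = a * m * d := ⟨_, rfl⟩
  obtain ⟨D, hD⟩ : ∃ D, D = m * (d - 1) + N := ⟨_, rfl⟩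
  obtain ⟨L, hL⟩ : ∃ L : (Fin d × Fin (N + 1) → ℚ) →ₗ[ℚ] ℚ[X][X],
      L = ∑ ij : Fin d × Fin (N + 1),
        (LinearMap.proj ij).smulRight
          (monomial (ij.1 : ℕ) (monomial (D - m * ij.1 - ij.2) (1 : ℚ))) := ⟨_, rfl⟩
  obtain ⟨R, hR⟩ : ∃ R : ℚ[X][X] →ₗ[ℚ] (Fin a × Fin (D + 1) → ℚ),
      R = LinearMap.pi fun ik : Fin a × Fin (D + 1) =>
        (lcoeff ℚ ik.2) ∘ₗ ((lcoeff ℚ[X] ik.1).restrictScalars ℚ) ∘ₗ
          ((Polynomial.modByMonicHom A).restrictScalars ℚ) := ⟨_, rfl⟩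
  have hdim : Module.finrank ℚ (Fin a × Fin (D + 1) → ℚ) <
      Module.finrank ℚ (Fin d × Fin (N + 1) → ℚ) := by
    simp only [Module.finrank_fintype_fun_eq_card, Fintype.card_prod, Fintype.card_fin]
    have h1 : a * (m * (d - 1)) ≤ N := by
      rw [hN, mul_assoc]
      exact Nat.mul_le_mul_left _ (Nat.mul_le_mul_left _ (Nat.sub_le _ _))
    calc a * (D + 1) = a * (m * (d - 1)) + a * (N + 1) := by rw [hD]; ring
      _ < (N + 1) + a * (N + 1) := Nat.add_lt_add_right (Nat.lt_succ_of_le h1) _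
      _ = (a + 1) * (N + 1) := by ring
      _ ≤ d * (N + 1) := Nat.mul_le_mul_right _ (ha ▸ had)
  obtain ⟨p, hp, hp0⟩ := Submodule.exists_mem_ne_zero_of_ne_bot
    (LinearMap.ker_ne_bot_of_finrank_lt (f := R ∘ₗ L) hdim)
  rw [LinearMap.mem_ker, LinearMap.comp_apply] at hp
  obtain ⟨P, hP⟩ : ∃ P : ℚ[X][X],
      P = ∑ ij : Fin d × Fin (N + 1), monomial (ij.1 : ℕ) (monomial (ij.2 : ℕ) (p ij)) := ⟨_, rfl⟩
  have hdvd : C ((X : ℚ[X]) ^ (D + 1)) ∣ L p %ₘ A := by
    rw [C_dvd_iff_dvd_coeff]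
    intro i
    rw [X_pow_dvd_iff]
    intro k hk
    rcases lt_or_ge i a with hi | hi
    · have := congrFun hp (⟨i, hi⟩, ⟨k, hk⟩)
      simpa [hR] using this
    · rw [coeff_eq_zero_of_degree_lt ((degree_modByMonic_lt _ hA).trans_le ?_), coeff_zero]
      rw [degree_eq_natDegree hA.ne_zero, ← ha]
      exact Nat.cast_le.2 hi
  obtain ⟨V, hV⟩ := hdvd
  refine ⟨D, P, L p /ₘ A, V, ?_, ?_, fun t s hs => ?_, by rw [hD, hN, ha]⟩
  · obtain ⟨⟨i, j⟩, hij⟩ := Function.ne_iff.1 hp0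
    intro h0
    refine hij ?_
    have h1 := congrArg (fun Z : ℚ[X][X] => (Z.coeff (i : ℕ)).coeff (j : ℕ)) h0
    simp only [hP, finsetSum_coeff, coeff_zero] at h1
    rw [Fintype.sum_eq_single (i, j)] at h1
    · simpa using h1
    · intro kl hne
      rw [coeff_monomial]
      split_ifs with hk
      · rw [coeff_monomial, if_neg fun hl => hne (Prod.ext (Fin.ext hk) (Fin.ext hl))]
      · exact coeff_zero _
  · rw [hP]
    refine lt_of_le_of_lt (natDegree_sum_le_of_forall_le _ _ fun ij _ => ?_)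
      (show d - 1 < d by omega)
    exact (natDegree_monomial_le _).trans (by omega)
  have hmod := congrArg (ev t s) (modByMonic_add_div (L p) A)
  rw [hV, map_add, map_mul, map_mul, ev_C, eval₂_X_pow] at hmod
  rw [add_comm, hmod, hP, hL, map_sum, sum_mul, LinearMap.sum_apply, map_sum]
  refine sum_congr rfl fun ij _ => ?_
  have hle : m * (ij.1 : ℕ) + ij.2 ≤ D := hD ▸ Nat.add_le_add
    (Nat.mul_le_mul_left _ (Nat.le_sub_one_of_lt ij.1.isLt)) (Nat.lt_succ_iff.1 ij.2.isLt)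
  simp only [LinearMap.smulRight_apply, LinearMap.proj_apply]
  rw [smul_monomial, smul_monomial, smul_eq_mul, mul_one]
  simp only [ev, coe_eval₂RingHom, eval₂_monomial, eq_ratCast]
  rw [show D = (D - m * ij.1 - ij.2) + m * ij.1 + ij.2 by omega, div_pow,
    ← pow_mul, inv_pow, pow_add, pow_add]
  have h1 : D - m * (ij.1 : ℕ) - ij.2 + m * ij.1 + ij.2 - m * ij.1 - ij.2 =
      D - m * (ij.1 : ℕ) - ij.2 := by omega
  rw [h1]
  field_simp

/-- Integrality makes a small value vanish. -/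
theorem exists_int_gap (P : ℚ[X][X]) : ∃ q : ℝ, 0 < q ∧
    ∀ x y : ℤ, (P.eval (C (x : ℚ))).eval (y : ℚ) ≠ 0 → 1 ≤ q * |ev (x : ℝ) (y : ℝ) P| := by
  classical
  obtain ⟨b, hb⟩ : ∃ b : ℕ, 0 < b ∧ ∀ x y : ℤ, ∃ z : ℤ,
      (b : ℚ) * (P.eval (C (x : ℚ))).eval (y : ℚ) = z := by
    induction P using Polynomial.induction_on' with
    | add p q hp hq =>
      obtain ⟨b, hb0, hb⟩ := hp
      obtain ⟨b', hb0', hb'⟩ := hq
      refine ⟨b * b', Nat.mul_pos hb0 hb0', fun x y => ?_⟩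
      obtain ⟨z, hz⟩ := hb x y
      obtain ⟨z', hz'⟩ := hb' x y
      refine ⟨b' * z + b * z', ?_⟩
      rw [eval_add, eval_add]
      push_cast
      linear_combination (b' : ℚ) * hz + (b : ℚ) * hz'
    | monomial n a =>
      induction a using Polynomial.induction_on' with
      | add p q hp hq =>
        obtain ⟨b, hb0, hb⟩ := hp
        obtain ⟨b', hb0', hb'⟩ := hq
        refine ⟨b * b', Nat.mul_pos hb0 hb0', fun x y => ?_⟩
        obtain ⟨z, hz⟩ := hb x y
        obtain ⟨z', hz'⟩ := hb' x y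
        refine ⟨b' * z + b * z', ?_⟩
        rw [map_add, eval_add, eval_add]
        push_cast
        linear_combination (b' : ℚ) * hz + (b : ℚ) * hz'
      | monomial j c =>
        refine ⟨c.den, c.den_pos, fun x y => ⟨c.num * y ^ j * x ^ n, ?_⟩⟩
        simp only [eval_monomial, eval_mul, eval_pow, eval_C]
        push_cast
        rw [← Rat.mul_den_eq_num c]
        ring
  obtain ⟨hb0, hb⟩ := hb
  refine ⟨b, Nat.cast_pos.2 hb0, fun x y hne => ?_⟩
  obtain ⟨z, hz⟩ := hb x y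
  have hz0 : z ≠ 0 := by
    rintro rfl
    exact hne ((mul_eq_zero.1 (by simpa using hz)).resolve_left (Nat.cast_ne_zero.2 hb0.ne'))
  have h1 : (1 : ℚ) ≤ |(z : ℚ)| := by exact_mod_cast Int.one_le_abs hz0
  rw [← hz, abs_mul, Nat.abs_cast] at h1
  have h2 : ev (x : ℝ) (y : ℝ) P = (((P.eval (C (x : ℚ))).eval (y : ℚ) : ℚ) : ℝ) := by
    rw [← ev_cast, Rat.cast_intCast, Rat.cast_intCast]
  rw [h2]
  exact_mod_cast h1

/-- Irreducibility leaves only finitely many ordinates of common zeros. -/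
theorem finite_common {F P : ℚ[X][X]} (hirr : Irreducible F) (hP : P ≠ 0)
    (hdeg : P.natDegree < F.natDegree) :
    {y : ℚ | ∃ x : ℚ, (F.eval (C x)).eval y = 0 ∧ (P.eval (C x)).eval y = 0}.Finite := by
  let K := FractionRing ℚ[X]
  have hinj : Function.Injective (algebraMap ℚ[X] K) := IsFractionRing.injective _ _
  have hprim : F.IsPrimitive := hirr.isPrimitive (by omega)
  have hirrK : Irreducible (F.map (algebraMap ℚ[X] K)) :=
    hprim.irreducible_iff_irreducible_map_fraction_map.1 hirr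
  have hPK : P.map (algebraMap ℚ[X] K) ≠ 0 := (Polynomial.map_ne_zero_iff hinj).2 hP
  have hndvd : ¬F.map (algebraMap ℚ[X] K) ∣ P.map (algebraMap ℚ[X] K) := fun h => by
    have := natDegree_le_of_dvd h hPK
    rw [natDegree_map_eq_of_injective hinj, natDegree_map_eq_of_injective hinj] at this
    omega
  obtain ⟨a, b, hab⟩ := hirrK.coprime_iff_not_dvd.2 hndvd
  obtain ⟨ra, hra0, hra⟩ := IsLocalization.integerNormalization_spec (nonZeroDivisors ℚ[X]) a
  obtain ⟨rb, hrb0, hrb⟩ := IsLocalization.integerNormalization_spec (nonZeroDivisors ℚ[X]) b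
  rw [Algebra.smul_def] at hra hrb
  have key : C rb * IsLocalization.integerNormalization (nonZeroDivisors ℚ[X]) a * F +
      C ra * IsLocalization.integerNormalization (nonZeroDivisors ℚ[X]) b * P =
      C (ra * rb) := by
    apply Polynomial.map_injective (algebraMap ℚ[X] K) hinj
    simp only [Polynomial.map_add, Polynomial.map_mul, map_C, map_mul, hra, hrb,
      Polynomial.algebraMap_apply]
    linear_combination (C (algebraMap ℚ[X] K ra) * C (algebraMap ℚ[X] K rb)) * hab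
  have hr : ra * rb ≠ 0 :=
    mul_ne_zero (nonZeroDivisors.ne_zero hra0) (nonZeroDivisors.ne_zero hrb0)
  refine (ra * rb).roots.toFinset.finite_toSet.subset ?_
  rintro y ⟨x, hF, hPx⟩
  have := congrArg (fun Z : ℚ[X][X] => (Z.eval (C x)).eval y) key
  simp only [eval_add, eval_mul, eval_C, hF, hPx, mul_zero, add_zero] at this
  simp [Multiset.mem_toFinset, mem_roots hr, IsRoot, ← this]

/-- **Runge's theorem**, weighted form. -/
theorem finite_integer_zeros {F : ℚ[X][X]} {m d : ℕ} {g h : ℚ[X]} (hirr : Irreducible F)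
    (hdeg : F.natDegree = d) (hwt : ∀ i, (F.coeff i).natDegree + m * i ≤ m * d ∨ F.coeff i = 0)
    {c : ℚ} (hlead : F.coeff d = C c) (hg : g.Monic) (hh : h.Monic) (hg1 : 0 < g.natDegree)
    (hh1 : 0 < h.natDegree) (hcop : IsCoprime g h)
    (htop : ∀ i ≤ d, (F.coeff i).coeff (m * (d - i)) = c * (g * h).coeff i)
    (hgh : (g * h).natDegree = d) :
    {v : ℤ × ℤ | (F.eval (C (v.1 : ℚ))).eval (v.2 : ℚ) = 0}.Finite := by
  classical
  have hc : c ≠ 0 := by
    rintro rfl
    rw [map_zero, ← hdeg] at hlead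
    exact hirr.ne_zero (leadingCoeff_eq_zero.1 hlead)
  -- the reversal at infinity, made monic
  obtain ⟨G, hG⟩ : ∃ G : ℚ[X][X], G = ∑ i ∈ range (d + 1),
      monomial i (C c⁻¹ * reflect (m * (d - i)) (F.coeff i)) := ⟨_, rfl⟩
  have hGc : ∀ i, G.coeff i = if i ≤ d then C c⁻¹ * reflect (m * (d - i)) (F.coeff i) else 0 := by
    intro i
    rw [hG, finsetSum_coeff]
    simp only [coeff_monomial, Finset.sum_ite_eq', Finset.mem_range, Nat.lt_succ_iff]
  have hGd : G.coeff d = 1 := by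
    rw [hGc, if_pos le_rfl, Nat.sub_self, mul_zero, hlead, reflect_C, pow_zero, mul_one, ← C_mul,
      inv_mul_cancel₀ hc, C_1]
  have hGmonic : G.Monic := monic_of_natDegree_le_of_coeff_eq_one d
    (natDegree_le_iff_coeff_eq_zero.2 fun i hi => by rw [hGc, if_neg (by omega)]) hGd
  have hred : red G = g * h := by
    ext i
    rw [red, coe_mapRingHom, coeff_map, coe_evalRingHom, ← coeff_zero_eq_eval_zero, hGc]
    split_ifs with hi
    · rw [coeff_C_mul, coeff_reflect, revAt_le (Nat.zero_le _), Nat.sub_zero, htop i hi,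
        inv_mul_cancel_left₀ hc]
    · rw [coeff_zero, coeff_eq_zero_of_natDegree_lt (by omega)]
  -- zeros correspond
  have hzero : ∀ x y : ℝ, y ≠ 0 → ev x y F = 0 → ev (x / y ^ m) y⁻¹ G = 0 := by
    intro x y hy h0
    have : Invertible y := invertibleOfNonzero hy
    have hF : ev x y F = ∑ i ∈ range (d + 1), (F.coeff i).eval₂ (Rat.castHom ℝ) y * x ^ i := by
      rw [ev, coe_eval₂RingHom, eval₂_eq_sum_range, hdeg]
      simp only [coe_eval₂RingHom]
    have e : ev (x / y ^ m) y⁻¹ G * ((c : ℝ) * y ^ (m * d)) = ev x y F := by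
      rw [hF, hG, map_sum, sum_mul]
      refine sum_congr rfl fun i hi => ?_
      have hi' : i ≤ d := Nat.lt_succ_iff.1 (Finset.mem_range.1 hi)
      have hr : (reflect (m * (d - i)) (F.coeff i)).eval₂ (Rat.castHom ℝ) y⁻¹ *
          y ^ (m * (d - i)) = (F.coeff i).eval₂ (Rat.castHom ℝ) y := by
        rw [← invOf_eq_inv y]
        refine eval₂_reflect_mul_pow _ y _ _ ?_
        rcases hwt i with h | h
        · rw [Nat.mul_sub]; omega
        · simp [h]
      rw [← hr]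
      simp only [ev, coe_eval₂RingHom, eval₂_monomial, eval₂_mul, eval₂_C]
      rw [show m * d = m * (d - i) + m * i by rw [← mul_add, Nat.sub_add_cancel hi'],
        pow_add, pow_mul y m i, div_pow, Rat.coe_castHom]
      field_simp
      push_cast
      field_simp
    rw [h0] at e
    exact (mul_eq_zero.1 e).resolve_right
      (mul_ne_zero (Rat.cast_ne_zero.2 hc) (pow_ne_zero _ hy))
  have hga : g.natDegree < d := by rw [← hgh, hg.natDegree_mul hh]; omega
  have hha : h.natDegree < d := by rw [← hgh, hg.natDegree_mul hh]; omega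
  obtain ⟨D₀, hD₀⟩ : ∃ D₀, D₀ = m * (d - 1) + g.natDegree * m * d + h.natDegree * m * d :=
    ⟨_, rfl⟩
  -- the orders needed by both factors
  obtain ⟨α₀, β₀, hab⟩ := hcop
  have hord : ∀ K, 1 ≤ K → ∃ A B E W : ℚ[X][X], A.Monic ∧ B.Monic ∧ A.natDegree < d ∧
      B.natDegree < d ∧ G - A * B = C ((X : ℚ[X]) ^ K) * E ∧
      cst α₀ * A + cst β₀ * B = 1 + C (X : ℚ[X]) * W := by
    intro K hK
    obtain ⟨A, B, hA, hB, hAg, hBh, hdA, hdB, E, hE⟩ :=
      exists_lift hGmonic hg hh ⟨α₀, β₀, hab⟩ hred K hK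
    obtain ⟨W, hW⟩ := C_X_dvd_of_red_eq_zero (Z := cst α₀ * A + cst β₀ * B - 1) (by
      rw [map_sub, map_add, map_mul, map_mul, map_one, red_cst, red_cst, hAg, hBh, hab, sub_self])
    exact ⟨A, B, E, W, hA, hB, hdA ▸ hga, hdB ▸ hha, hE, by linear_combination hW⟩
  obtain ⟨K, hK1, hKge⟩ : ∃ K, 1 ≤ K ∧ D₀ + 1 ≤ K := ⟨D₀ + 1, by omega, le_rfl⟩
  obtain ⟨A, B, E, W, hA, hB, hAd, hBd, hE, hW⟩ := hord K hK1
  obtain ⟨δ, T, M, hδ, hδ1, hnear⟩ := exists_near_zero hGmonic hE hW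
  -- one group of branches
  have hbranch : ∀ Z : ℚ[X][X], Z.Monic → Z.natDegree < d →
      Z.natDegree ≤ g.natDegree + h.natDegree →
      ∃ (Y : ℝ) (P : ℚ[X][X]), P ≠ 0 ∧ P.natDegree < d ∧ ∀ x y : ℤ, Y < |(y : ℝ)| →
        ev (x : ℝ) (y : ℝ) F = 0 →
        |ev ((x : ℝ) / (y : ℝ) ^ m) (y : ℝ)⁻¹ Z| ≤ M * |(y : ℝ)⁻¹| ^ K →
        (P.eval (C (x : ℚ))).eval (y : ℚ) = 0 := by
    intro Z hZ hZd hZle
    obtain ⟨D, P, U, V, hP, hPd, hid, hDle⟩ : ∃ (D : ℕ) (P U V : ℚ[X][X]), P ≠ 0 ∧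
        P.natDegree < d ∧ (∀ t s : ℝ, s ≠ 0 → ev (t / s ^ m) s⁻¹ P * s ^ D =
          ev t s Z * ev t s U + s ^ (D + 1) * ev t s V) ∧ D ≤ D₀ := by
      obtain ⟨D, P, U, V, h1, h2, h3, h4⟩ := exists_aux m d hZ hZd
      refine ⟨D, P, U, V, h1, h2, h3, h4.trans (hD₀ ▸ ?_)⟩
      rw [add_assoc, ← Nat.add_mul, ← Nat.add_mul]
      gcongr
    obtain ⟨q, hq, hgap⟩ := exists_int_gap P
    obtain ⟨Mu, hMu⟩ := exists_bound T U
    obtain ⟨Mv, hMv⟩ := exists_bound T V
    obtain ⟨Y, hY1, hY2⟩ : ∃ Y, δ⁻¹ ≤ Y ∧ q * (|M| * |Mu| + |Mv|) ≤ Y :=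
      ⟨max _ _, le_max_left _ _, le_max_right _ _⟩
    refine ⟨Y, P, hP, hPd, fun x y hy h0 hsmall => ?_⟩
    by_contra hne
    have hy0 : (y : ℝ) ≠ 0 := fun e => by
      rw [e, abs_zero] at hy
      linarith [inv_pos.2 hδ]
    obtain ⟨s, hs⟩ : ∃ s : ℝ, s = (y : ℝ)⁻¹ := ⟨_, rfl⟩
    obtain ⟨t, ht⟩ : ∃ t : ℝ, t = (x : ℝ) / (y : ℝ) ^ m := ⟨_, rfl⟩
    rw [← hs, ← ht] at hsmall
    have hs0 : s ≠ 0 := hs ▸ inv_ne_zero hy0
    have hsle : |s| ≤ δ := by
      rw [hs, abs_inv, inv_le_comm₀ (abs_pos.2 hy0) hδ]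
      exact hY1.trans hy.le
    have hs1 : |s| ≤ 1 := hsle.trans hδ1
    have hG0 := hzero x y hy0 h0
    rw [← hs, ← ht] at hG0
    have htT := (hnear t s hsle hG0).1
    have e := hid t s hs0
    rw [show t / s ^ m = (x : ℝ) by rw [ht, hs, inv_pow]; field_simp,
      show s⁻¹ = (y : ℝ) by rw [hs, inv_inv]] at e
    have hbound : |ev (x : ℝ) (y : ℝ) P| * |s| ^ D ≤ (|M| * |Mu| + |Mv|) * |s| ^ (D + 1) := by
      rw [← abs_pow, ← abs_mul, e, add_mul]
      refine (abs_add_le _ _).trans (add_le_add ?_ ?_) <;> rw [abs_mul]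
      · calc |ev t s Z| * |ev t s U| ≤ |M| * |s| ^ (D + 1) * |Mu| := by
              refine mul_le_mul (hsmall.trans ?_) ((hMu t s htT hs1).trans (le_abs_self _))
                (abs_nonneg _) (by positivity)
              exact mul_le_mul (le_abs_self M)
                (pow_le_pow_of_le_one (abs_nonneg _) hs1 (by omega)) (by positivity) (abs_nonneg _)
          _ = _ := by ring
      · rw [abs_pow, mul_comm]
        exact mul_le_mul_of_nonneg_right ((hMv t s htT hs1).trans (le_abs_self _)) (by positivity)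
    rw [pow_succ', ← mul_assoc] at hbound
    have h1 := le_of_mul_le_mul_right hbound (pow_pos (abs_pos.2 hs0) D)
    have h2 := mul_le_mul_of_nonneg_left h1 hq.le
    have h3 : q * ((|M| * |Mu| + |Mv|) * |s|) < 1 := by
      rw [hs, abs_inv, ← mul_assoc, ← div_eq_mul_inv, div_lt_one (abs_pos.2 hy0)]
      exact hY2.trans_lt hy
    linarith [hgap x y hne]
  obtain ⟨Ya, Pa, hPa, hPad, hbra⟩ :=
    hbranch A hA hAd (by rw [← hgh, hg.natDegree_mul hh] at hAd; omega)
  obtain ⟨Yb, Pb, hPb, hPbd, hbrb⟩ :=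
    hbranch B hB hBd (by rw [← hgh, hg.natDegree_mul hh] at hBd; omega)
  obtain ⟨Y, hYa, hYb, hYδ⟩ : ∃ Y : ℤ, Ya ≤ Y ∧ Yb ≤ Y ∧ δ⁻¹ ≤ Y :=
    ⟨⌈max (max Ya Yb) δ⁻¹⌉, ((le_max_left _ _).trans (le_max_left _ _)).trans (Int.le_ceil _),
      ((le_max_right _ _).trans (le_max_left _ _)).trans (Int.le_ceil _),
      (le_max_right _ _).trans (Int.le_ceil _)⟩
  have hsa := (finite_common hirr hPa (hdeg ▸ hPad)).preimage
    (f := fun y : ℤ => (y : ℚ)) Int.cast_injective.injOn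
  have hsb := (finite_common hirr hPb (hdeg ▸ hPbd)).preimage
    (f := fun y : ℤ => (y : ℚ)) Int.cast_injective.injOn
  have hys := (hsa.union hsb).union (Set.finite_Icc (-Y) Y)
  refine Set.Finite.subset (hys.biUnion (t := fun y : ℤ =>
    ((fun x : ℤ => (x, y)) '' {x : ℤ | (F.eval (C (x : ℚ))).eval (y : ℚ) = 0}))
    fun y _ => Set.Finite.image _ ?_) fun v hv => Set.mem_biUnion ?_ ⟨v.1, hv, rfl⟩
  · have hne : F.map (evalRingHom (y : ℚ)) ≠ 0 := fun e => hc (by
      have := congrArg (fun Z : ℚ[X] => Z.coeff d) e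
      simpa [hlead] using this)
    refine Set.Finite.subset ((F.map (evalRingHom (y : ℚ))).roots.toFinset.finite_toSet.preimage
      (f := fun x : ℤ => (x : ℚ)) Int.cast_injective.injOn) fun x hx => ?_
    simp only [Set.mem_preimage, Finset.mem_coe, Multiset.mem_toFinset, mem_roots hne, IsRoot]
    rw [← coe_evalRingHom, ← eval_C (a := (x : ℚ)) (x := (y : ℚ))]
    simpa [eval_map, ← hom_eval₂, eval₂_at_apply] using hx
  · obtain ⟨x, y⟩ := v
    rcases le_or_gt |y| Y with hy | hy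
    · exact Or.inr (abs_le.1 hy)
    have hyR : (Y : ℝ) < |(y : ℝ)| := by exact_mod_cast hy
    have h0 : ev (x : ℝ) (y : ℝ) F = 0 := by
      have h := ev_cast (x : ℚ) (y : ℚ) F
      rw [Rat.cast_intCast, Rat.cast_intCast] at h
      rw [h, show (F.eval (C (x : ℚ))).eval (y : ℚ) = 0 from hv, Rat.cast_zero]
    have hy0 : (y : ℝ) ≠ 0 := fun e => by
      rw [e, abs_zero] at hyR
      linarith [inv_pos.2 hδ]
    have hsle : |(y : ℝ)⁻¹| ≤ δ := by
      rw [abs_inv, inv_le_comm₀ (abs_pos.2 hy0) hδ]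
      exact hYδ.trans hyR.le
    left
    rcases (hnear _ _ hsle (hzero _ _ hy0 h0)).2 with hs | hs
    · exact Or.inl ⟨x, hv, hbra x y (hYa.trans_lt hyR) h0 hs⟩
    · exact Or.inr ⟨x, hv, hbrb x y (hYb.trans_lt hyR) h0 hs⟩

end FA.Runge

end
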